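import Mathlib

/-!
# Countable fields of constants

A countable subset of an algebraically closed field of characteristic zero lies in a countable
algebraically closed subfield (`exists_countable_isAlgClosed`), and countable fields of
characteristic zero embed in `ℂ` (`nonempty_ringHom_complex`).
-/

set_option autoImplicit false
set_option linter.style.haveILetI false

noncomputable section

open Cardinal

namespace FLTAgent.Pic0Tors.Descent

/-- A countable set lies in a countable algebraically closed subfield. -/
theorem exists_countable_isAlgClosed (K : Type*) [Field K] [CharZero K] [IsAlgClosed K]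
    {C : Set K} (hC : C.Countable) :
    ∃ K₁ : Subfield K, Countable K₁ ∧ IsAlgClosed K₁ ∧ C ⊆ (K₁ : Set K) := by
  let E := IntermediateField.adjoin ℚ C
  have hE : Countable E := by
    rw [← Cardinal.mk_le_aleph0_iff, ← Cardinal.lift_le_aleph0]
    refine (IntermediateField.lift_cardinalMk_adjoin_le ℚ C).trans ?_
    simp [hC.le_aleph0]
  let A := algebraicClosure E K
  have hA : Countable A :=
    ((Algebraic.countable E K).mono fun x hx => mem_algebraicClosure_iff.mp hx).to_subtype
  have hcl : IsAlgClosed A := (algebraicClosure.isAlgClosure (F := E) (E := K)).isAlgClosed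
  refine ⟨A.toSubfield, hA, hcl, fun x hx => ?_⟩
  exact A.algebraMap_mem ⟨x, IntermediateField.subset_adjoin ℚ C hx⟩

/-- A countable field of characteristic zero embeds in `ℂ`. -/
theorem nonempty_ringHom_complex (K₁ : Type*) [Field K₁] [CharZero K₁] [Countable K₁] :
    Nonempty (K₁ →+* ℂ) := by
  obtain ⟨s, hs⟩ := exists_isTranscendenceBasis ℚ K₁
  obtain ⟨t, ht⟩ := exists_isTranscendenceBasis ℚ ℂ
  have hC : ℵ₀ < #ℂ := lt_of_not_ge fun h =>
    not_countable_complex (Set.countable_univ_iff.mpr (Cardinal.mk_le_aleph0_iff.mp h))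
  have htc := IsAlgClosed.cardinal_eq_cardinal_transcendence_basis_of_aleph0_lt _ ht
    Cardinal.mkRat.le hC
  have hst : Nonempty (s ↪ t) := by
    rw [← Cardinal.lift_mk_le']
    refine le_trans (Cardinal.lift_le_aleph0.mpr (Cardinal.mk_le_aleph0)) ?_
    have h := hC.le
    rw [← Cardinal.lift_id #ℂ, htc, Cardinal.lift_id] at h
    exact Cardinal.aleph0_le_lift.mpr h
  obtain ⟨i⟩ := hst
  have hind : AlgebraicIndependent ℚ (fun x : s => ((i x : t) : ℂ)) := ht.1.comp i i.injective
  let R := Algebra.adjoin ℚ (Set.range ((↑) : s → K₁))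
  let φ : R →ₐ[ℚ] ℂ :=
    (MvPolynomial.aeval fun x : s => ((i x : t) : ℂ)).comp hs.1.aevalEquiv.symm.toAlgHom
  have hφ : Function.Injective φ :=
    (algebraicIndependent_iff_injective_aeval.mp hind).comp hs.1.aevalEquiv.symm.injective
  letI : Algebra R ℂ := φ.toRingHom.toAlgebra
  haveI : FaithfulSMul R ℂ := (faithfulSMul_iff_algebraMap_injective R ℂ).mpr hφ
  haveI : Algebra.IsAlgebraic R K₁ := hs.isAlgebraic
  haveI : Module.IsTorsionFree R ℂ := inferInstance
  exact ⟨(IsAlgClosed.lift (R := R) (S := K₁) (M := ℂ)).toRingHom⟩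

end FLTAgent.Pic0Tors.Descent
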