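import Fermat.Agent.Torsion.FiniteOrbit

/-!
# Extension of constants on `Pic⁰`

`picExt` is injective (`picExt_injective`) and, when the torsion upstairs is finite, bijective on
torsion (`natCard_torsion_eq_of_finite`): a class with finite orbit under the automorphisms of the
extension descends.
-/

set_option autoImplicit false
set_option linter.unusedSectionVars false

noncomputable section

open AlgebraicCurve Submodule

namespace FLTAgent.Pic0Tors.Descent

open FLTAgent.Torsion

variable {K L F F' : Type*} [Field K] [Field L] [Field F] [Field F'] [Algebra K F] [Algebra L F']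
variable {ι : K →+* L} {e : F →+* F'}
variable [IsAlgClosed K] [IsAlgClosed L] [FF.IsFF K F] [FF.IsFF L F']

theorem degree_mapDomain_extP (he : IsConstExt ι e) (D : Divisor K F) :
    Divisor.degree (Finsupp.mapDomain (extP he) D : Divisor L F') = Divisor.degree D := by
  rw [FF.degree_eq_sum, FF.degree_eq_sum,
    Finsupp.sum_mapDomain_index (fun _ => rfl) (fun _ _ _ => rfl)]

/-- Extension of constants on divisors of degree zero. -/
def degZeroExt (he : IsConstExt ι e) :
    Divisor.degZero (K := K) (F := F) →+ Divisor.degZero (K := L) (F := F') :=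
  (((Finsupp.mapDomain.addMonoidHom (extP he)) : Divisor K F →+ Divisor L F').domRestrict
    _).codRestrict _ fun D => by
      rw [Divisor.mem_degZero]
      exact (degree_mapDomain_extP he D).trans D.2

@[simp]
theorem coe_degZeroExt (he : IsConstExt ι e) (D : Divisor.degZero (K := K) (F := F)) :
    (degZeroExt he D : Divisor L F') = Finsupp.mapDomain (extP he) (D : Divisor K F) := rfl

theorem isPrincipal_mapDomain_extP (he : IsConstExt ι e) {D : Divisor K F} (hD : D.IsPrincipal) :
    Divisor.IsPrincipal (Finsupp.mapDomain (extP he) D : Divisor L F') := by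
  obtain ⟨f, hf, hdiv⟩ := hD
  refine ⟨e f, (map_ne_zero _).mpr hf, fun w => ?_⟩
  by_cases hw : ∃ v, extP he v = w
  · obtain ⟨v, rfl⟩ := hw
    rw [Finsupp.mapDomain_apply (extP_injective he), ord_extP, hdiv]
  · rw [Finsupp.mapDomain_of_notMem_range]
    · by_contra hne
      obtain ⟨v, hv⟩ := exists_eq_extP he (Ne.symm hne)
      exact hw ⟨v, hv.symm⟩
    · exact hw

/-- Extension of constants on divisor classes. -/
def picExt (he : IsConstExt ι e) : Pic0 K F →+ Pic0 L F' :=
  QuotientAddGroup.map _ _ (degZeroExt he) (fun D hD => by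
    simp only [AddSubgroup.mem_comap, AddSubgroup.mem_addSubgroupOf] at hD ⊢
    exact isPrincipal_mapDomain_extP he hD)

theorem picExt_mk (he : IsConstExt ι e) (D : Divisor.degZero (K := K) (F := F)) :
    picExt he (Pic0.mk D) = Pic0.mk (degZeroExt he D) := rfl

/-- Extension of constants is injective on `Pic⁰`. -/
theorem picExt_injective (he : IsConstExt ι e) (haut : HasAutExt ι e) :
    Function.Injective (picExt he) := by
  rw [injective_iff_map_eq_zero]
  intro x hx
  obtain ⟨D, rfl⟩ := Pic0.mk_surjective x
  rw [picExt_mk] at hx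
  refine (QuotientAddGroup.eq_zero_iff _).mpr ?_
  have h := (QuotientAddGroup.eq_zero_iff _).mp hx
  rw [AddSubgroup.mem_addSubgroupOf] at h ⊢
  exact isPrincipal_of_mapDomain_extP he haut h

theorem picExt_mem_torsion_iff (he : IsConstExt ι e) (haut : HasAutExt ι e) {n : ℕ}
    {x : Pic0 K F} : picExt he x ∈ Pic0.torsion L F' n ↔ x ∈ Pic0.torsion K F n := by
  rw [Pic0.mem_torsion, Pic0.mem_torsion, ← map_zsmul]
  exact map_eq_zero_iff _ (picExt_injective he haut)

/-- A class supported at extended places comes from the small field. -/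
theorem exists_picExt_eq (he : IsConstExt ι e) (D : Divisor.degZero (K := L) (F := F'))
    (hD : ∀ w ∈ (D : Divisor L F').support, ∃ v, extP he v = w) :
    ∃ y, picExt he y = Pic0.mk D := by
  set D₀ : Divisor K F :=
    Finsupp.comapDomain (extP he) (D : Divisor L F') (extP_injective he).injOn with hD₀
  have h : Finsupp.mapDomain (extP he) D₀ = (D : Divisor L F') :=
    Finsupp.mapDomain_comapDomain _ (extP_injective he) _ (fun w hw => hD w hw)
  have hdeg : D₀ ∈ Divisor.degZero (K := K) (F := F) := by
    rw [Divisor.mem_degZero, ← degree_mapDomain_extP he, h]; exact D.2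
  exact ⟨Pic0.mk ⟨D₀, hdeg⟩, by rw [picExt_mk]; exact congrArg _ (Subtype.ext h)⟩

theorem exists_picExt_eq_of_finite_torsion (he : IsConstExt ι e) (haut : HasAutExt ι e) {n : ℕ}
    (hfin : Finite (Pic0.torsion L F' n)) {x : Pic0 L F'} (hx : x ∈ Pic0.torsion L F' n) :
    ∃ y ∈ Pic0.torsion K F n, picExt he y = x := by
  obtain ⟨D, rfl⟩ := Pic0.mk_surjective x
  obtain ⟨D₀, hD₀⟩ := exists_sub_mapDomain_mem_principal he haut (D := (D : Divisor L F')) (by
      let j : Pic0 L F' → Pic L F' :=
        Quotient.lift (fun E : Divisor.degZero (K := L) (F := F') =>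
            (QuotientAddGroup.mk (E : Divisor L F') : Pic L F')) (fun a b h =>
          QuotientAddGroup.eq.mpr (by
            have := QuotientAddGroup.leftRel_apply.mp h
            simpa [AddSubgroup.mem_addSubgroupOf] using this))
      refine ((Set.finite_coe_iff.mp hfin).image j).subset ?_
      rintro _ ⟨g, rfl⟩
      exact ⟨(g : SemilinearAut L F') • Pic0.mk D, SemilinearAut.smul_mem_torsion _ hx, rfl⟩)
  have hdeg : D₀ ∈ Divisor.degZero (K := K) (F := F) := by
    rw [Divisor.mem_degZero, ← degree_mapDomain_extP he]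
    obtain ⟨f, hf, hdiv⟩ := hD₀
    have h1 : (D : Divisor L F') - Finsupp.mapDomain (extP he) D₀ = FF.divisorOf f :=
      Finsupp.ext fun v => by rw [hdiv, FF.divisorOf_apply]
    have h2 := congrArg Divisor.degree h1
    rw [map_sub, Divisor.mem_degZero.mp D.2, FF.degree_divisorOf, zero_sub, neg_eq_zero] at h2
    exact h2
  have heq : picExt he (Pic0.mk ⟨D₀, hdeg⟩) = Pic0.mk D := by
    rw [picExt_mk]
    refine QuotientAddGroup.eq.mpr ?_
    rw [AddSubgroup.mem_addSubgroupOf]
    simpa [neg_add_eq_sub] using hD₀
  exact ⟨_, (picExt_mem_torsion_iff he haut).mp (heq ▸ hx), heq⟩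

/-- A finite torsion subgroup upstairs has the same size downstairs. -/
theorem natCard_torsion_eq_of_finite (he : IsConstExt ι e) (haut : HasAutExt ι e) {n : ℕ}
    (hfin : Finite (Pic0.torsion L F' n)) :
    Nat.card (Pic0.torsion K F n) = Nat.card (Pic0.torsion L F' n) := by
  refine Nat.card_eq_of_bijective
    (fun x => (⟨picExt he x.1, (picExt_mem_torsion_iff he haut).mpr x.2⟩ :
      Pic0.torsion L F' n)) ⟨fun x y h => ?_, fun z => ?_⟩
  · exact Subtype.ext (picExt_injective he haut (congrArg Subtype.val h))
  · obtain ⟨y, hy, hyz⟩ := exists_picExt_eq_of_finite_torsion he haut hfin z.2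
    exact ⟨⟨y, hy⟩, Subtype.ext hyz⟩

end FLTAgent.Pic0Tors.Descent
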