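import Fermat.Agent.FF.Differentials
import Fermat.Agent.Pic0Tors.Descent.PicExt

/-!
# Genus under extension of constants

`genusFF_eq_of_isConstExt`: the genus does not change under an extension of constants; transport
of genus and torsion counts along isomorphisms (`genusFF_congr`, `natCard_torsion_congr`).
-/

set_option autoImplicit false
set_option linter.unusedSectionVars false
set_option linter.style.haveILetI false

noncomputable section

open AlgebraicCurve Submodule

namespace FLTAgent.Pic0Tors.Descent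

open FLTAgent.Torsion

variable {K L F F' : Type*} [Field K] [Field L] [Field F] [Field F'] [Algebra K F] [Algebra L F']
variable {ι : K →+* L} {e : F →+* F'}
variable [IsAlgClosed K] [IsAlgClosed L] [CharZero K] [CharZero L] [FF.IsFF K F] [FF.IsFF L F']

theorem ordDifferential_D_extP (he : IsConstExt ι e) (v : Place K F) {x : F}
    (hx : Transcendental K x) :
    (extP he v).ordDifferential (KaehlerDifferential.D L F' (e x)) =
      v.ordDifferential (KaehlerDifferential.D K F x) := by
  rcases lt_or_ge (v.ord x) 0 with h | h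
  · rw [(FF.ordDifferential_D_of_ord_cast_ne_zero v (f := x)
        (Int.cast_ne_zero.mpr h.ne)).2,
      (FF.ordDifferential_D_of_ord_cast_ne_zero (extP he v) (f := e x)
        (by rw [ord_extP]; exact Int.cast_ne_zero.mpr h.ne)).2, ord_extP]
  · obtain ⟨c, hc⟩ := hasResidue_of_isFF v x h
    rcases hc with hc | hc
    · exact absurd (hc ▸ isAlgebraic_algebraMap c) hx
    have e1 : e x - algebraMap L F' (ι c) = e (x - algebraMap K F c) := by
      rw [map_sub, he.map_algebraMap]
    have h2 := (FF.ordDifferential_D_of_ord_sub_cast_ne_zero (extP he v) (f := e x) (c := ι c)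
      (by rw [e1, ord_extP]; exact Int.cast_ne_zero.mpr hc.ne')).2
    rw [h2, (FF.ordDifferential_D_of_ord_sub_cast_ne_zero v (f := x) (c := c)
      (Int.cast_ne_zero.mpr hc.ne')).2, e1, ord_extP]

/-- The genus is invariant under extension of constants. -/
theorem genusFF_eq_of_isConstExt (he : IsConstExt ι e) (haut : HasAutExt ι e) :
    genusFF L F' = genusFF K F := by
  classical
  obtain ⟨x, hx, hfin, hsep⟩ := FF.IsFF.exists_sep (K := K) (F := F)
  obtain ⟨v₀, hv₀⟩ : ∃ v : Place K F, v.ord x ≠ 0 := by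
    by_contra hne
    push Not at hne
    obtain ⟨c, hc⟩ := FF.mem_range_of_forall_ord_nonneg (K := K) (fun v => (hne v).ge)
    exact hx (hc ▸ isAlgebraic_algebraMap c)
  have hx' : Transcendental L (e x) :=
    FF.transcendental_of_ord_ne_zero (extP he v₀) (by rwa [ord_extP])
  haveI := FF.finiteDimensional_adjoin_of_transcendental (K := L) hx'
  haveI := FF.isSeparable_adjoin_of_charZero (K := L) hx'
  have hω : KaehlerDifferential.D K F x ≠ 0 := FF.D_ne_zero_of_isSep ⟨hx, hfin, hsep⟩
  have hω' : KaehlerDifferential.D L F' (e x) ≠ 0 :=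
    FF.D_ne_zero_of_isSep ⟨hx', inferInstance, inferInstance⟩
  have hnew : ∀ w : Place L F', (∀ v, w ≠ extP he v) →
      w.ordDifferential (KaehlerDifferential.D L F' (e x)) = 0 := by
    intro w hw
    have hw' := (not_eq_extP_iff he w).mpr hw
    obtain ⟨a, -, ha⟩ := exists_residue_notMem he hx hw'
    set m := w.ord (e x - algebraMap L F' a)
    have hm : w.ordDifferential (KaehlerDifferential.D L F' (e x)) = m - 1 :=
      (FF.ordDifferential_D_of_ord_sub_cast_ne_zero w (Int.cast_ne_zero.mpr ha.ne')).2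
    rw [hm]
    by_contra hne
    refine infinite_orbit he haut hw' ((canonicalDivisorOf hω').support.finite_toSet.subset ?_)
    rintro _ ⟨g, rfl⟩
    have h1 := SemilinearAut.ord_smul (g : SemilinearAut L F') w (e x - algebraMap L F' a)
    rw [smul_sub, g.2 x, SemilinearAut.smul_algebraMap] at h1
    rw [Finset.mem_coe, Finsupp.mem_support_iff, canonicalDivisorOf_apply,
      (FF.ordDifferential_D_of_ord_sub_cast_ne_zero ((g : SemilinearAut L F') • w)
        (by rw [h1]; exact Int.cast_ne_zero.mpr ha.ne')).2, h1]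
    exact hne
  have hdiv : canonicalDivisorOf hω' = Finsupp.mapDomain (extP he) (canonicalDivisorOf hω) := by
    refine Finsupp.ext fun w => ?_
    rw [canonicalDivisorOf_apply]
    by_cases hw : ∃ v, extP he v = w
    · obtain ⟨v, rfl⟩ := hw
      rw [Finsupp.mapDomain_apply (extP_injective he), canonicalDivisorOf_apply,
        ordDifferential_D_extP he v hx]
    · rw [Finsupp.mapDomain_of_notMem_range (h := hw)]
      exact hnew w fun v hv => hw ⟨v, hv.symm⟩
  have h1 := FF.degree_canonicalDivisorOf hω'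
  rw [hdiv, degree_mapDomain_extP, FF.degree_canonicalDivisorOf hω] at h1
  omega

omit [CharZero K] [CharZero L] in
theorem isConstExt_algEquiv {F₂ : Type*} [Field F₂] [Algebra K F₂] (φ : F ≃ₐ[K] F₂) :
    IsConstExt (RingHom.id K) (φ : F →+* F₂) where
  map_algebraMap a := φ.commutes a
  linIndep _ hs := hs.map' φ.toLinearEquiv.toLinearMap φ.toLinearEquiv.ker
  generates x := ⟨x, subset_span ⟨φ.symm x, φ.apply_symm_apply x⟩, 1,
    subset_span ⟨1, map_one _⟩, one_ne_zero, (div_one x).symm⟩

omit [CharZero K] [CharZero L] in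
theorem hasAutExt_algEquiv {F₂ : Type*} [Field F₂] [Algebra K F₂] (φ : F ≃ₐ[K] F₂) :
    HasAutExt (RingHom.id K) (φ : F →+* F₂) := fun _ hτ =>
  ⟨1, one_mem _, RingEquiv.ext fun a => (hτ a).symm⟩

theorem genusFF_congr {F₂ : Type*} [Field F₂] [Algebra K F₂] [FF.IsFF K F₂] (φ : F ≃ₐ[K] F₂) :
    genusFF K F₂ = genusFF K F :=
  genusFF_eq_of_isConstExt (isConstExt_algEquiv φ) (hasAutExt_algEquiv φ)

theorem natCard_torsion_congr {F₂ : Type*} [Field F₂] [Algebra K F₂] [FF.IsFF K F₂]
    (φ : F ≃ₐ[K] F₂) (n : ℕ) :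
    Nat.card (Pic0.torsion K F n) = Nat.card (Pic0.torsion K F₂ n) := by
  have he := isConstExt_algEquiv φ
  have haut := hasAutExt_algEquiv φ
  refine Nat.card_eq_of_bijective
    (fun x => (⟨picExt he x.1, (picExt_mem_torsion_iff he haut).mpr x.2⟩ :
      Pic0.torsion K F₂ n)) ⟨fun x y h => ?_, fun z => ?_⟩
  · exact Subtype.ext (picExt_injective he haut (congrArg Subtype.val h))
  · obtain ⟨D, hD⟩ := Pic0.mk_surjective z.1
    obtain ⟨y, hy⟩ := exists_picExt_eq he D fun w _ => by
      obtain ⟨f, -, hf⟩ := FF.exists_ord_eq w 1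
      obtain ⟨v, hv⟩ := exists_eq_extP he (w := w) (y := φ.symm f) (by
        rw [RingHom.coe_coe, φ.apply_symm_apply, hf]; exact one_ne_zero)
      exact ⟨v, hv.symm⟩
    rw [hD] at hy
    exact ⟨⟨y, (picExt_mem_torsion_iff he haut).mp (hy.symm ▸ z.2)⟩, Subtype.ext hy⟩

end FLTAgent.Pic0Tors.Descent
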