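import Mathlib
import Fermat.Agent.FF.PlacesMain
import Fermat.Prelude.Def_AlgebraicCurve_IsCurveOver

/-!
# Curves give function fields

`isFF_of_isCurveOver`: in characteristic zero an essentially finite type curve field is a function
field of one variable with a separating element.
-/

set_option autoImplicit false
set_option linter.style.haveILetI false

noncomputable section

open AlgebraicCurve
open scoped IntermediateField

namespace FLTAgent.Pic0Tors.Descent

variable (K F : Type*) [Field K] [Field F] [Algebra K F]

theorem natCard_transcendenceBasis_eq_one [CharZero K] [IsCurveOver K F] {s : Set F}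
    (hs : IsTranscendenceBasis K ((↑) : s → F)) : Nat.card s = 1 := by
  let P := MvPolynomial s K
  letI : Algebra P F := (MvPolynomial.aeval ((↑) : s → F)).toRingHom.toAlgebra
  haveI : IsScalarTower K P F :=
    IsScalarTower.of_algebraMap_eq fun c => (AlgHom.commutes _ c).symm
  haveI : FaithfulSMul P F := (faithfulSMul_iff_algebraMap_injective P F).mpr hs.1
  haveI halg : Algebra.IsAlgebraic P F := ⟨fun y => by
    haveI := hs.isAlgebraic
    obtain ⟨p, hp0, hp⟩ :=
      Algebra.IsAlgebraic.isAlgebraic (R := Algebra.adjoin K (Set.range ((↑) : s → F))) y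
    let φ : P →ₐ[K] Algebra.adjoin K (Set.range ((↑) : s → F)) :=
      (MvPolynomial.aeval ((↑) : s → F)).codRestrict _ fun x => by
        rw [Algebra.adjoin_range_eq_range_aeval]; exact ⟨x, rfl⟩
    have hφ : Function.Surjective φ.toRingHom := fun a => by
      obtain ⟨x, hx⟩ : (a : F) ∈ (MvPolynomial.aeval (R := K) ((↑) : s → F)).range :=
        (Algebra.adjoin_range_eq_range_aeval K ((↑) : s → F)).le a.2
      exact ⟨x, Subtype.ext hx⟩
    obtain ⟨q, rfl⟩ := Polynomial.map_surjective _ hφ p
    refine ⟨q, fun h => hp0 (by rw [h, Polynomial.map_zero]), ?_⟩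
    rw [← hp, Polynomial.aeval_def, Polynomial.aeval_def, Polynomial.eval₂_map]
    rfl⟩
  let R := FractionRing P
  letI : Algebra R F := FractionRing.liftAlgebra P F
  haveI : IsScalarTower K R F := IsScalarTower.to₁₃₄ K P R F
  haveI : Algebra.IsAlgebraic R F :=
    Algebra.IsAlgebraic.extendScalars (R := P) (IsFractionRing.injective P R)
  haveI : CharZero R := charZero_of_injective_algebraMap (FaithfulSMul.algebraMap_injective K R)
  haveI : Algebra.IsSeparable R F := inferInstance
  haveI : Algebra.FormallyEtale P R := Algebra.FormallyEtale.of_isLocalization (nonZeroDivisors P)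
  haveI : Algebra.FormallyEtale R F := Algebra.FormallyEtale.of_isSeparable R F
  haveI : Algebra.FormallyEtale P F := Algebra.FormallyEtale.comp P R F
  let b := ((KaehlerDifferential.mvPolynomialBasis K s).baseChange F).map
    (KaehlerDifferential.tensorKaehlerEquivOfFormallyEtale K P F)
  rw [← Module.finrank_eq_nat_card_basis b]
  exact IsCurveOver.finrank_kaehler

/-- A curve over a field of characteristic zero is a function field. -/
theorem isFF_of_isCurveOver [CharZero K] [IsCurveOver K F] [Algebra.EssFiniteType K F] :
    FF.IsFF K F := by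
  obtain ⟨s, hs⟩ := exists_isTranscendenceBasis K F
  obtain ⟨hsub, ⟨x⟩⟩ := Nat.card_eq_one_iff_unique.mp (natCard_transcendenceBasis_eq_one K F hs)
  have hrange : Set.range ((↑) : s → F) = {(x : F)} := by
    ext y
    constructor
    · rintro ⟨z, rfl⟩; rw [Subsingleton.elim z x]; rfl
    · rintro rfl; exact ⟨x, rfl⟩
  have htr : Transcendental K (x : F) := hs.1.transcendental x
  have halg := hs.isAlgebraic_field
  rw [hrange] at halg
  haveI : Algebra.EssFiniteType K⟮(x : F)⟯ F := Algebra.EssFiniteType.of_comp K _ F
  haveI : FiniteDimensional K⟮(x : F)⟯ F := Algebra.finite_of_essFiniteType_of_isAlgebraic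
  exact FF.IsFF.of_finiteDimensional (x : F) htr

end FLTAgent.Pic0Tors.Descent
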