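import Mathlib
import Fermat.Prelude.Def_ModularCurve_LaurentCoeff
import Fermat.Agent.FF.Differentials
import Fermat.Agent.Torsion.FiniteOrbit

/-!
# Function fields inside Laurent series

`SF L ρ = L(T, ρ) ⊂ L((T))` is a function field when `ρ` is algebraic over `L(T)` (`isFF_SF`), and
a map of constants induces `sfMap`, an extension of constants with enough automorphisms
(`isConstExt_sfMap`, `hasAutExt_sfMap`).
-/

set_option autoImplicit false
set_option linter.unusedSectionVars false

noncomputable section

open AlgebraicCurve ModularCurve Submodule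
open scoped Polynomial.Bivariate IntermediateField

namespace FLTAgent.Pic0Tors.Descent

section Basic

variable (L : Type*) [Field L]

/-- The parameter `T`. -/
def lsT : LaurentSeries L := HahnSeries.single 1 1

/-- The subfield `L(T, ρ)` of `L((T))`. -/
def SF (ρ : LaurentSeries L) : IntermediateField L (LaurentSeries L) :=
  IntermediateField.adjoin L {lsT L, ρ}

variable {L}

/-- `T` as an element of `SF L ρ`. -/
def sfX (ρ : LaurentSeries L) : SF L ρ :=
  ⟨lsT L, IntermediateField.subset_adjoin L _ (by simp)⟩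

/-- `ρ` as an element of `SF L ρ`. -/
def sfY (ρ : LaurentSeries L) : SF L ρ :=
  ⟨ρ, IntermediateField.subset_adjoin L _ (by simp)⟩

theorem algebraMap_ls (c : L) : algebraMap L (LaurentSeries L) c = HahnSeries.C c := by
  simp [HahnSeries.algebraMap_apply']

theorem transcendental_lsT : Transcendental L (lsT L) := by
  rw [transcendental_iff]
  intro p hp
  ext n
  have h := congrArg (fun z : LaurentSeries L => z.coeff (n : ℤ)) hp
  have e : Polynomial.aeval (lsT L) p = ∑ i ∈ p.support, HahnSeries.single (i : ℤ) (p.coeff i) := by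
    rw [Polynomial.aeval_def, Polynomial.eval₂_eq_sum, Polynomial.sum_def]
    refine Finset.sum_congr rfl fun i _ => ?_
    rw [lsT, HahnSeries.single_pow, algebraMap_ls, HahnSeries.C_apply,
      HahnSeries.single_mul_single]
    simp
  simp only [e, HahnSeries.coeff_sum, HahnSeries.coeff_single, HahnSeries.coeff_zero] at h
  simp only [Polynomial.coeff_zero]
  simpa [Finset.sum_ite_eq, Polynomial.mem_support_iff] using h

theorem transcendental_sfX (ρ : LaurentSeries L) : Transcendental L (sfX ρ) := fun h =>
  transcendental_lsT (h.algebraMap (A := LaurentSeries L))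

theorem adjoin_sfX_sfY (ρ : LaurentSeries L) :
    IntermediateField.adjoin L ({sfX ρ, sfY ρ} : Set (SF L ρ)) = ⊤ := by
  refine IntermediateField.map_injective (SF L ρ).val ?_
  rw [IntermediateField.adjoin_map, Set.image_pair, ← AlgHom.fieldRange_eq_map,
    IntermediateField.fieldRange_val]
  rfl

set_option synthInstance.maxHeartbeats 200000 in
/-- `SF L ρ` is a function field once `ρ` is algebraic over `L(T)`. -/
theorem isFF_SF [CharZero L] (ρ : LaurentSeries L)
    (hρ : IsAlgebraic L⟮sfX ρ⟯ (sfY ρ)) : FF.IsFF L (SF L ρ) := by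
  have hfin : FiniteDimensional L⟮sfX ρ⟯ (SF L ρ) := by
    have h1 : FiniteDimensional L⟮sfX ρ⟯ (L⟮sfX ρ⟯⟮sfY ρ⟯) :=
      IntermediateField.adjoin.finiteDimensional hρ.isIntegral
    have htop : (L⟮sfX ρ⟯⟮sfY ρ⟯).restrictScalars L = ⊤ := by
      rw [IntermediateField.adjoin_simple_adjoin_simple]
      exact adjoin_sfX_sfY ρ
    have h2 : L⟮sfX ρ⟯⟮sfY ρ⟯ = ⊤ :=
      IntermediateField.restrictScalars_injective L (by rw [htop, IntermediateField.restrictScalars_top])
    rw [h2] at h1
    exact Module.Finite.equiv IntermediateField.topEquiv.toLinearEquiv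
  exact FF.IsFF.of_finiteDimensional (sfX ρ) (transcendental_sfX ρ)

end Basic

section Map

variable {L M : Type*} [Field L] [Field M] (j : L →+* M) {ρ : LaurentSeries L}
  {ρ' : LaurentSeries M} (h : coeffMap j ρ = ρ')

theorem coeffMap_lsT : coeffMap j (lsT L) = lsT M := by
  rw [lsT, lsT, coeffMap_single, map_one]

theorem coeffMap_algebraMap (a : L) :
    coeffMap j (algebraMap L (LaurentSeries L) a) = algebraMap M (LaurentSeries M) (j a) := by
  rw [algebraMap_ls, algebraMap_ls, HahnSeries.C_apply, HahnSeries.C_apply, coeffMap_single]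

include h in
theorem coeffMap_mem_SF {x : LaurentSeries L} (hx : x ∈ SF L ρ) :
    coeffMap j x ∈ SF M ρ' := by
  refine IntermediateField.adjoin_induction L (p := fun x _ => coeffMap j x ∈ SF M ρ')
    ?_ ?_ ?_ ?_ ?_ hx
  · intro y hy
    rcases hy with rfl | rfl
    · rw [coeffMap_lsT]; exact (sfX ρ').2
    · rw [h]; exact (sfY ρ').2
  · intro a
    rw [coeffMap_algebraMap]
    exact (SF M ρ').algebraMap_mem _
  · intro a b _ _ ha hb
    rw [map_add]; exact add_mem ha hb
  · intro a _ ha
    rw [map_inv₀]; exact inv_mem ha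
  · intro a b _ _ ha hb
    rw [map_mul]; exact mul_mem ha hb

/-- Extension of constants along `j`. -/
def sfMap : SF L ρ →+* SF M ρ' :=
  ((coeffMap j).comp (SF L ρ).toSubfield.subtype).codRestrict (SF M ρ').toSubfield
    (fun x => coeffMap_mem_SF j h x.2)

theorem coe_sfMap (x : SF L ρ) :
    (sfMap j h x : LaurentSeries M) = coeffMap j (x : LaurentSeries L) := rfl

theorem sfMap_sfX : sfMap j h (sfX ρ) = sfX ρ' := Subtype.ext (coeffMap_lsT j)

theorem sfMap_sfY : sfMap j h (sfY ρ) = sfY ρ' := Subtype.ext h

/-- `coeffMap` preserves linear independence. -/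
theorem linearIndependent_coeffMap_sf {β : Type*} [Fintype β] {f : β → LaurentSeries L}
    (hf : LinearIndependent L f) : LinearIndependent M fun i => coeffMap j (f i) := by
  let : Algebra L M := j.toAlgebra
  rw [Fintype.linearIndependent_iff] at hf ⊢
  intro a ha i
  let B := Module.Basis.ofVectorSpace L M
  refine B.repr.injective (Finsupp.ext fun k => ?_)
  rw [map_zero, Finsupp.zero_apply]
  refine hf (fun i => B.repr (a i) k) ?_ i
  ext m
  have h := congrArg (fun x : LaurentSeries M => B.repr (x.coeff m) k) ha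
  simp only [HahnSeries.coeff_sum, map_sum, Finsupp.coe_finsetSum, Finset.sum_apply,
    HahnSeries.coeff_smul, coeffMap_coeff, HahnSeries.coeff_zero, map_zero,
    Finsupp.zero_apply] at h ⊢
  rw [← h]
  refine Finset.sum_congr rfl fun i _ => ?_
  rw [smul_eq_mul, smul_eq_mul,
    show a i * j ((f i).coeff m) = (f i).coeff m • a i by rw [mul_comm]; rfl, map_smul,
    Finsupp.smul_apply, smul_eq_mul, mul_comm]

theorem coe_smul_SF {L : Type*} [Field L] {ρ : LaurentSeries L} (a : L) (x : SF L ρ) :
    ((a • x : SF L ρ) : LaurentSeries L) = a • (x : LaurentSeries L) := by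
  rw [← HahnSeries.C_mul_eq_smul, Algebra.smul_def, MulMemClass.coe_mul, ← algebraMap_ls]
  rfl

theorem isConstExt_sfMap : Torsion.IsConstExt j (sfMap j h) where
  map_algebraMap a := Subtype.ext (coeffMap_algebraMap j a)
  linIndep s hs := by
    rw [Fintype.linearIndependent_iff] at hs ⊢
    have hL : LinearIndependent L fun i : s => ((i : SF L ρ) : LaurentSeries L) := by
      rw [Fintype.linearIndependent_iff]
      intro a ha
      refine hs a (Subtype.ext ?_)
      rw [AddSubmonoidClass.coe_finsetSum, ZeroMemClass.coe_zero, ← ha]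
      exact Finset.sum_congr rfl fun i _ => coe_smul_SF _ _
    have hM := Fintype.linearIndependent_iff.mp (linearIndependent_coeffMap_sf j hL)
    intro a ha
    refine hM a ?_
    have h' := congrArg Subtype.val ha
    rw [AddSubmonoidClass.coe_finsetSum, ZeroMemClass.coe_zero] at h'
    rw [← h']
    refine Finset.sum_congr rfl fun i _ => ?_
    rw [coe_smul_SF, coe_sfMap]
  generates x := by
    let S : Submodule M (SF M ρ') := span M (Set.range (sfMap j h))
    have hone : (1 : SF M ρ') ∈ S := subset_span ⟨1, map_one _⟩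
    have hmul : ∀ {a b : SF M ρ'}, a ∈ S → b ∈ S → a * b ∈ S := by
      intro a b ha hb
      induction ha using Submodule.span_induction with
      | mem u hu =>
        induction hb using Submodule.span_induction with
        | mem v hv =>
          obtain ⟨u, rfl⟩ := hu
          obtain ⟨v, rfl⟩ := hv
          exact subset_span ⟨u * v, map_mul _ _ _⟩
        | zero => rw [mul_zero]; exact zero_mem _
        | add p q _ _ hp hq => rw [mul_add]; exact add_mem hp hq
        | smul c p _ hp => rw [mul_smul_comm]; exact smul_mem _ c hp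
      | zero => rw [zero_mul]; exact zero_mem _
      | add p q _ _ hp hq => rw [add_mul]; exact add_mem hp hq
      | smul c p _ hp => rw [smul_mul_assoc]; exact smul_mem _ c hp
    have hx : x ∈ IntermediateField.adjoin M ({sfX ρ', sfY ρ'} : Set (SF M ρ')) :=
      (adjoin_sfX_sfY ρ').symm ▸ IntermediateField.mem_top
    refine IntermediateField.adjoin_induction M
      (p := fun y _ => ∃ a ∈ S, ∃ b ∈ S, b ≠ 0 ∧ y = a / b) ?_ ?_ ?_ ?_ ?_ hx
    · intro y hy
      rcases hy with rfl | rfl
      · exact ⟨sfX ρ', subset_span ⟨sfX ρ, sfMap_sfX j h⟩, 1, hone, one_ne_zero, (div_one _).symm⟩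
      · exact ⟨sfY ρ', subset_span ⟨sfY ρ, sfMap_sfY j h⟩, 1, hone, one_ne_zero, (div_one _).symm⟩
    · intro c
      exact ⟨algebraMap M (SF M ρ') c, by
        rw [Algebra.algebraMap_eq_smul_one]; exact smul_mem _ _ hone, 1, hone, one_ne_zero,
        (div_one _).symm⟩
    · rintro _ _ _ _ ⟨a, ha, b, hb, hb0, rfl⟩ ⟨c, hc, d, hd, hd0, rfl⟩
      exact ⟨a * d + b * c, add_mem (hmul ha hd) (hmul hb hc), b * d, hmul hb hd,
        mul_ne_zero hb0 hd0, div_add_div a c hb0 hd0⟩
    · rintro _ _ ⟨a, ha, b, hb, hb0, rfl⟩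
      rcases eq_or_ne a 0 with rfl | ha0
      · exact ⟨0, zero_mem _, 1, hone, one_ne_zero, by simp⟩
      · exact ⟨b, hb, a, ha, ha0, inv_div a b⟩
    · rintro _ _ _ _ ⟨a, ha, b, hb, hb0, rfl⟩ ⟨c, hc, d, hd, hd0, rfl⟩
      exact ⟨a * c, hmul ha hc, b * d, hmul hb hd, mul_ne_zero hb0 hd0,
        div_mul_div_comm a b c d⟩

theorem hasAutExt_sfMap : Torsion.HasAutExt j (sfMap j h) := by
  intro τ hτ
  have hc : (τ.symm : M →+* M).comp j = j := RingHom.ext fun a => by
    simp [RingEquiv.symm_apply_eq, hτ a]
  have hc' : (τ : M →+* M).comp j = j := RingHom.ext fun a => hτ a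
  have hfix : coeffMap (τ : M →+* M) ρ' = ρ' := by
    rw [← h, coeffMap_coeffMap]; exact coeffMap_congr hc' _
  have hfix' : coeffMap (τ.symm : M →+* M) ρ' = ρ' := by
    rw [← h, coeffMap_coeffMap]; exact coeffMap_congr hc _
  let E : SF M ρ' ≃+* SF M ρ' :=
    { sfMap (τ : M →+* M) hfix with
      invFun := sfMap (τ.symm : M →+* M) hfix'
      left_inv := fun x => Subtype.ext (by
        show coeffMap (τ.symm : M →+* M) (coeffMap (τ : M →+* M) (x : LaurentSeries M)) = x
        ext k; simp)
      right_inv := fun x => Subtype.ext (by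
        show coeffMap (τ : M →+* M) (coeffMap (τ.symm : M →+* M) (x : LaurentSeries M)) = x
        ext k; simp) }
  refine ⟨⟨(E, τ), fun a => Subtype.ext ?_⟩, fun f => Subtype.ext ?_, rfl⟩
  · exact coeffMap_algebraMap (τ : M →+* M) a
  · show coeffMap (τ : M →+* M) (coeffMap j (f : LaurentSeries L)) = coeffMap j (f : LaurentSeries L)
    rw [coeffMap_coeffMap]
    exact coeffMap_congr hc' _

end Map

end FLTAgent.Pic0Tors.Descent
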