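import Fermat.Agent.FF.Differentials
import Fermat.Agent.Pic0Tors.Descent.SField

/-!
# Function fields as Laurent series fields

`exists_sf_model`: a function field over an algebraically closed field of characteristic zero is
some `SF K ρ` with `HasRel ρ`; the relation satisfied by `ρ` can be moved along maps of the
constants (`HasRel.map`, `HasRel.of_map`).
-/

set_option autoImplicit false
set_option linter.style.haveILetI false

noncomputable section

open AlgebraicCurve ModularCurve Polynomial
open scoped IntermediateField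

namespace FLTAgent.Pic0Tors.Descent

/-- `ρ` satisfies a polynomial relation over `L[T]`. -/
def HasRel {L : Type*} [Field L] (ρ : LaurentSeries L) : Prop :=
  ∃ P : L[X][X], P ≠ 0 ∧ P.eval₂ (aeval (R := L) (lsT L)).toRingHom ρ = 0

theorem aeval_sfX {L : Type*} [Field L] (ρ : LaurentSeries L) (q : L[X]) :
    ((aeval (R := L) (sfX ρ) q : SF L ρ) : LaurentSeries L) = aeval (lsT L) q :=
  (aeval_algHom_apply (SF L ρ).val (sfX ρ) q).symm

theorem HasRel.isAlgebraic {L : Type*} [Field L] {ρ : LaurentSeries L} (h : HasRel ρ) :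
    IsAlgebraic L⟮sfX ρ⟯ (sfY ρ) := by
  obtain ⟨P, hP0, hP⟩ := h
  refine IntermediateField.isAlgebraic_adjoin_iff.mpr ?_
  let φ : L[X] →ₐ[L] Algebra.adjoin L ({sfX ρ} : Set (SF L ρ)) :=
    (aeval (sfX ρ)).codRestrict _ fun q => by
      rw [Algebra.adjoin_singleton_eq_range_aeval]; exact ⟨q, rfl⟩
  have hφ : Function.Injective φ.toRingHom := fun p q hpq =>
    transcendental_iff_injective.mp (transcendental_sfX ρ) (congrArg Subtype.val hpq)
  refine ⟨P.map φ.toRingHom, (Polynomial.map_ne_zero_iff hφ).mpr hP0, ?_⟩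
  apply (SF L ρ).val.toRingHom.injective
  rw [map_zero, aeval_def, eval₂_map, hom_eval₂, ← hP]
  have e : ((SF L ρ).val.toRingHom).comp ((algebraMap (Algebra.adjoin L ({sfX ρ} : Set (SF L ρ)))
      (SF L ρ)).comp φ.toRingHom) = (aeval (R := L) (lsT L)).toRingHom :=
    RingHom.ext fun q => aeval_sfX ρ q
  rw [e]
  rfl

theorem HasRel.map {L M : Type*} [Field L] [Field M] (j : L →+* M) {ρ : LaurentSeries L}
    {ρ' : LaurentSeries M} (h : coeffMap j ρ = ρ') (hρ : HasRel ρ) : HasRel ρ' := by
  obtain ⟨P, hP0, hP⟩ := hρ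
  refine ⟨P.map (mapRingHom j),
    (Polynomial.map_ne_zero_iff (Polynomial.map_injective j j.injective)).mpr hP0, ?_⟩
  have h2 := congrArg (coeffMap j) hP
  rw [hom_eval₂, map_zero, h] at h2
  rw [eval₂_map, ← h2]
  congr 1
  refine ringHom_ext (fun a => ?_) ?_
  · simp [coeffMap_algebraMap]
  · simp [coeffMap_lsT]

theorem injective_coeffMap {L M : Type*} [Field L] [Field M] (j : L →+* M) :
    Function.Injective (coeffMap j : LaurentSeries L → LaurentSeries M) :=
  RingHom.injective _

theorem HasRel.of_map {L M : Type*} [Field L] [Field M] (j : L →+* M) {ρ : LaurentSeries L}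
    {ρ' : LaurentSeries M} (h : coeffMap j ρ = ρ') {P : M[X][X]}
    (hP0 : P ≠ 0) (hP : P.eval₂ (aeval (R := M) (lsT M)).toRingHom ρ' = 0)
    (hc : ∀ i k, (P.coeff i).coeff k ∈ j.range) : HasRel ρ := by
  obtain ⟨Q, rfl⟩ : ∃ Q : L[X][X], Q.map (mapRingHom j) = P := by
    refine (lifts_iff_coeff_lifts P).mpr fun i => ?_
    exact (lifts_iff_coeff_lifts (f := j) (P.coeff i)).mpr fun k => hc i k
  refine ⟨Q, fun h0 => hP0 (by rw [h0, Polynomial.map_zero]), injective_coeffMap j ?_⟩
  rw [hom_eval₂, map_zero, h, ← hP, eval₂_map]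
  congr 1
  refine ringHom_ext (fun a => ?_) ?_
  · simp [coeffMap_algebraMap]
  · simp [coeffMap_lsT]

/-- A function field is some `SF K ρ`. -/
theorem exists_sf_model (K F : Type*) [Field K] [Field F] [Algebra K F] [IsAlgClosed K]
    [CharZero K] [FF.IsFF K F] :
    ∃ ρ : LaurentSeries K, HasRel ρ ∧ Nonempty (F ≃ₐ[K] SF K ρ) := by
  obtain ⟨v⟩ := FF.place_nonempty (K := K) (F := F)
  haveI := FF.ratPlace_of_constResidue (FF.constResidue v)
  have hπ := FF.uni_irreducible v
  set x : F := (FF.uni v : F) with hx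
  set E := FF.expand hπ
  have hEx : E x = lsT K := FF.expand_uniformizer hπ
  have hord : v.ord x ≠ 0 := by
    rw [← FF.order_expand hπ, show FF.expand hπ x = lsT K from hEx, lsT,
      HahnSeries.order_single one_ne_zero]
    exact one_ne_zero
  have htr : Transcendental K x := FF.transcendental_of_ord_ne_zero v hord
  haveI := FF.finiteDimensional_adjoin_of_transcendental (K := K) htr
  haveI := FF.isSeparable_adjoin_of_charZero (K := K) htr
  obtain ⟨y, hy⟩ := Field.exists_primitive_element K⟮x⟯ F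
  have htop : IntermediateField.adjoin K ({x, y} : Set F) = ⊤ := by
    rw [← IntermediateField.adjoin_simple_adjoin_simple, hy, IntermediateField.restrictScalars_top]
  refine ⟨E y, ?_, ?_⟩
  · have halg : IsAlgebraic K⟮x⟯ y := (IsIntegral.of_finite K⟮x⟯ y).isAlgebraic
    obtain ⟨p, hp0, hp⟩ := IntermediateField.isAlgebraic_adjoin_iff.mp halg
    let φ : K[X] →ₐ[K] Algebra.adjoin K ({x} : Set F) :=
      (aeval x).codRestrict _ fun q => by
        rw [Algebra.adjoin_singleton_eq_range_aeval]; exact ⟨q, rfl⟩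
    have hφ : Function.Surjective φ.toRingHom := fun a => by
      obtain ⟨q, hq⟩ : (a : F) ∈ (aeval (R := K) x).range :=
        (Algebra.adjoin_singleton_eq_range_aeval K x).le a.2
      exact ⟨q, Subtype.ext hq⟩
    obtain ⟨P, rfl⟩ := Polynomial.map_surjective _ hφ p
    refine ⟨P, fun h => hp0 (by rw [h, Polynomial.map_zero]), ?_⟩
    rw [aeval_def, eval₂_map] at hp
    have h2 := congrArg E.toRingHom hp
    rw [hom_eval₂, map_zero] at h2
    rw [← h2]
    congr 1
    refine ringHom_ext (fun a => ?_) ?_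
    · simp [φ]
    · simp [φ, hEx]
  · refine ⟨(show F ≃ₐ[K] E.fieldRange from AlgEquiv.ofInjectiveField E).trans
      (IntermediateField.equivOfEq ?_)⟩
    rw [AlgHom.fieldRange_eq_map, ← htop, IntermediateField.adjoin_map, Set.image_pair, hEx]
    rfl

end FLTAgent.Pic0Tors.Descent
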