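import Fermat.Agent.Pic0Tors.Descent.Countable
import Fermat.Agent.Pic0Tors.Descent.Genus
import Fermat.Agent.Pic0Tors.Descent.IsFF
import Fermat.Agent.Pic0Tors.Descent.Model
import Fermat.Prelude.Def_AlgebraicCurve_Repartitions

/-!
# Reduction of the torsion count to `ℂ`

`natCard_torsion_of_complex`: if `Pic⁰` of every complex function field has `n ^ (2g)` points
killed by `n` (the hypothesis `H`, proved in `Pic0Tors/Complex.lean`), the same holds over every
algebraically closed field of characteristic zero. Finitely many classes are defined over a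
countable algebraically closed field, which embeds in `ℂ`.
-/

set_option autoImplicit false
set_option linter.style.haveILetI false
set_option linter.unusedSectionVars false

noncomputable section

open AlgebraicCurve ModularCurve Polynomial
open scoped IntermediateField

namespace FLTAgent.Pic0Tors.Descent

theorem isFF_SF_of_hasRel {L : Type*} [Field L] [CharZero L] {ρ : LaurentSeries L}
    (h : HasRel ρ) : FF.IsFF L (SF L ρ) :=
  isFF_SF ρ h.isAlgebraic

theorem finite_torsion_of_natCard {L F : Type*} [Field L] [Field F] [Algebra L F] {n g : ℕ}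
    [NeZero n] (h : Nat.card (Pic0.torsion L F n) = n ^ g) : Finite (Pic0.torsion L F n) :=
  Nat.finite_of_card_ne_zero (h ▸ pow_ne_zero _ (NeZero.ne n))

section

variable (H : ∀ (G : Type) [Field G] [Algebra ℂ G] [FF.IsFF ℂ G] (n : ℕ) [NeZero n],
    Nat.card (Pic0.torsion ℂ G n) = n ^ (2 * genusFF ℂ G))

include H

/-- The count over a countable algebraically closed field, from the count over `ℂ`. -/
theorem natCard_torsion_countable {L : Type*} [Field L] [CharZero L] [IsAlgClosed L]
    [Countable L] {ρ : LaurentSeries L} (hρ : HasRel ρ) (n : ℕ) [NeZero n] :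
    Nat.card (Pic0.torsion L (SF L ρ) n) = n ^ (2 * genusFF L (SF L ρ)) := by
  obtain ⟨τ⟩ := nonempty_ringHom_complex L
  haveI := isFF_SF_of_hasRel hρ
  haveI := isFF_SF_of_hasRel (hρ.map τ (rfl : coeffMap τ ρ = coeffMap τ ρ))
  have he := isConstExt_sfMap τ (rfl : coeffMap τ ρ = coeffMap τ ρ)
  have haut := hasAutExt_sfMap τ (rfl : coeffMap τ ρ = coeffMap τ ρ)
  have hC := H (SF ℂ (coeffMap τ ρ)) n
  rw [natCard_torsion_eq_of_finite he haut (finite_torsion_of_natCard hC), hC,
    genusFF_eq_of_isConstExt he haut]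

set_option maxHeartbeats 1600000 in
/-- Finitely many torsion classes live over a countable field. -/
theorem exists_countable_model {K : Type*} [Field K] [CharZero K] [IsAlgClosed K]
    {ρ : LaurentSeries K} (hρ : HasRel ρ) [FF.IsFF K (SF K ρ)] {n : ℕ} [NeZero n]
    (S : Finset (Pic0.torsion K (SF K ρ) n)) :
    S.card ≤ n ^ (2 * genusFF K (SF K ρ)) ∧
      (Finite (Pic0.torsion K (SF K ρ) n) →
        Nat.card (Pic0.torsion K (SF K ρ) n) = n ^ (2 * genusFF K (SF K ρ))) := by
  classical
  obtain ⟨P, hP0, hP⟩ := hρ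
  have hres : ∀ w : Place K (SF K ρ), ∃ a : K,
      w.ord (sfX ρ - algebraMap K (SF K ρ) a) ≠ 0 := by
    intro w
    rcases lt_or_ge (w.ord (sfX ρ)) 0 with h | h
    · exact ⟨0, by rw [map_zero, sub_zero]; exact h.ne⟩
    obtain ⟨a, ha⟩ := Torsion.hasResidue_of_isFF w (sfX ρ) h
    rcases ha with ha | ha
    · exact absurd (ha ▸ isAlgebraic_algebraMap a) (transcendental_sfX ρ)
    · exact ⟨a, ha.ne'⟩
  choose a ha using hres
  choose D hD using fun x : Pic0.torsion K (SF K ρ) n => Pic0.mk_surjective x.1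
  let W : Set (Place K (SF K ρ)) := ⋃ x ∈ S, ↑((D x : Divisor K (SF K ρ)).support)
  have hW : W.Countable := S.countable_toSet.biUnion fun x _ => Finset.countable_toSet _
  let C : Set K := Set.range ρ.coeff ∪ a '' W ∪ ⋃ i : ℕ, Set.range (P.coeff i).coeff
  have hC : C.Countable :=
    ((Set.countable_range _).union (hW.image a)).union
      (Set.countable_iUnion fun i => Set.countable_range _)
  obtain ⟨K₁, hcount, hcl, hsub⟩ := exists_countable_isAlgClosed K hC
  have hmem : ∀ k, ρ.coeff k ∈ K₁ := fun k => hsub (Or.inl (Or.inl ⟨k, rfl⟩))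
  let ρ₁ : LaurentSeries K₁ :=
    ⟨fun k => ⟨ρ.coeff k, hmem k⟩, ρ.isPWO_support.mono fun k hk h0 => hk (Subtype.ext h0)⟩
  have hρ₁ : coeffMap K₁.subtype ρ₁ = ρ := HahnSeries.ext (funext fun k => by simp [ρ₁])
  have hrel : HasRel ρ₁ := HasRel.of_map K₁.subtype hρ₁ hP0 hP fun i k =>
    ⟨⟨_, hsub (Or.inr (Set.mem_iUnion.mpr ⟨i, k, rfl⟩))⟩, rfl⟩
  haveI := isFF_SF_of_hasRel hrel
  have he := isConstExt_sfMap K₁.subtype hρ₁
  have haut := hasAutExt_sfMap K₁.subtype hρ₁
  have hg := genusFF_eq_of_isConstExt he haut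
  have h1 := natCard_torsion_countable H hrel n
  haveI := finite_torsion_of_natCard h1
  refine ⟨?_, fun hfin => ?_⟩
  · rw [hg, ← h1]
    have hlift : ∀ x : S, ∃ y : Pic0.torsion K₁ (SF K₁ ρ₁) n, picExt he y.1 = x.1.1 := by
      intro x
      obtain ⟨y, hy⟩ := exists_picExt_eq he (D x.1) fun w hw => by
        have hwC : a w ∈ K₁ :=
          hsub (Or.inl (Or.inr ⟨w, Set.mem_iUnion₂.mpr ⟨x.1, x.2, hw⟩, rfl⟩))
        obtain ⟨v, hv⟩ := Torsion.exists_eq_extP he (w := w)
          (y := sfX ρ₁ - algebraMap K₁ (SF K₁ ρ₁) ⟨a w, hwC⟩) (by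
            rw [map_sub, sfMap_sfX, he.map_algebraMap]; exact ha w)
        exact ⟨v, hv.symm⟩
      rw [hD] at hy
      exact ⟨⟨y, (picExt_mem_torsion_iff he haut).mp (hy.symm ▸ x.1.2)⟩, hy⟩
    choose f hf using hlift
    rw [← Nat.card_eq_finsetCard]
    exact Nat.card_le_card_of_injective f fun x y h =>
      Subtype.ext (Subtype.ext (by rw [← hf x, ← hf y, h]))
  · exact ((natCard_torsion_eq_of_finite he haut hfin).symm.trans h1).trans
      (congrArg (fun g => n ^ (2 * g)) hg.symm)

/-- The torsion count over `ℂ` gives it over every algebraically closed field of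
characteristic zero. -/
theorem natCard_torsion_of_complex
    (K F : Type*) [Field K] [Field F] [Algebra K F] [IsAlgClosed K] [CharZero K]
    [IsCurveOver K F] [Algebra.EssFiniteType K F] (n : ℕ) [NeZero n] :
    Nat.card (Pic0.torsion K F n) = n ^ (2 * genusFF K F) := by
  haveI := isFF_of_isCurveOver K F
  obtain ⟨ρ, hρ, ⟨φ⟩⟩ := exists_sf_model K F
  haveI := isFF_SF_of_hasRel hρ
  rw [natCard_torsion_congr φ n, ← genusFF_congr φ]
  refine (exists_countable_model H hρ ∅).2 ?_
  by_contra hinf
  rw [not_finite_iff_infinite] at hinf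
  obtain ⟨S, hS⟩ := Infinite.exists_subset_card_eq (Pic0.torsion K (SF K ρ) n)
    (n ^ (2 * genusFF K (SF K ρ)) + 1)
  have h := (exists_countable_model H hρ S).1
  omega

end

end FLTAgent.Pic0Tors.Descent
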